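import Fermat.Agent.Jac.PicScheme

/-!
Elementary consequences of a Picard scheme: separatedness, translations, rational points.
-/

set_option autoImplicit false
set_option linter.unusedVariables false

noncomputable section

open CategoryTheory CategoryTheory.Limits AlgebraicGeometry TopologicalSpace Opposite NeronModelInfra
open AlgebraicGeometry.RelPicard

namespace Fermat.Agent.Jac

universe u

/-- Every class on a one point scheme is trivial. -/
theorem pic_eq_one_of_subsingleton {X : Scheme.{u}} [Subsingleton X] (ξ : Pic X) : ξ = 1 := by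
  induction ξ using Pic.ind with
  | h ι d =>
    rcases isEmpty_or_nonempty X with hX | ⟨⟨x⟩⟩
    · rw [Pic.mk_eq_one_iff]
      exact ⟨⟨fun _ _ _ _ => 1, fun _ _ _ _ _ _ => map_one _, fun i j V _ hi hj => by
        refine sections_ext (ι := PEmpty.{u + 1}) (fun e => e.elim) (fun x _ => isEmptyElim x)
          fun e => e.elim⟩, fun _ _ _ _ => isUnit_one⟩
    · obtain ⟨i, hi⟩ := d.cover x
      have htop : d.U i = ⊤ := eq_top_iff.mpr fun y _ => Subsingleton.elim x y ▸ hi
      rw [Pic.mk_eq_one_iff]
      exact ⟨Sec.gen d i ⊤ htop.ge, Sec.isGen_gen i htop.ge⟩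

section General

variable {R : Type u} [CommRing R] {C : Scheme.{u}} (c : C ⟶ Spec (CommRingCat.of R))
  (ε : SchemeHomOver (𝟙 (Spec (CommRingCat.of R))) c)
  {T T' : Scheme.{u}} {t : T ⟶ Spec (CommRingCat.of R)} {t' : T' ⟶ Spec (CommRingCat.of R)}

/-- Rigidification commutes with base change. -/
theorem rigidPicMap_rigidify (g : SchemeHomOver t' t) (ξ : Pic (pullback c t)) :
    rigidPicMap c ε g (rigidify c ε t ξ) = rigidify c ε t' (Pic.map (baseChangeSnd c g) ξ) := by
  refine Subtype.ext ?_
  rw [coe_rigidPicMap, coe_rigidify, coe_rigidify, map_div]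
  congr 1
  rw [Pic.map_map (rigSection c t' ε), rigSection_baseChangeSnd, ← Pic.map_map g.1, Pic.map_map,
    Pic.map_map]
  rw [baseChangeSnd_snd, Pic.map_map, Pic.map_map]

/-- The structure map as a morphism to the base. -/
def structOver (t : T ⟶ Spec (CommRingCat.of R)) :
    SchemeHomOver t (𝟙 (Spec (CommRingCat.of R))) := ⟨t, Category.comp_id t⟩

theorem rigidPicMap_structOver (g : SchemeHomOver t' t)
    (ξ : rigidPic c ε (𝟙 (Spec (CommRingCat.of R)))) :
    rigidPicMap c ε g (rigidPicMap c ε (structOver t) ξ) = rigidPicMap c ε (structOver t') ξ := by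
  rw [rigidPicMap_rigidPicMap, rigidPicMap_congr c ε (g' := structOver t') g.2]

end General

variable {k : Type u} [Field k] {C : Scheme.{u}} {c : C ⟶ Spec (CommRingCat.of k)}
  {ε : SchemeHomOver (𝟙 (Spec (CommRingCat.of k))) c}

namespace PicScheme

variable (J : PicScheme c ε) {T T' : Scheme.{u}} {t : T ⟶ Spec (CommRingCat.of k)}
  {t' : T' ⟶ Spec (CommRingCat.of k)}

theorem classOf_injective : Function.Injective (J.classOf (t := t)) :=
  (J.bijective t).1

theorem classOf_postComp {X : Scheme.{u}} {x : X ⟶ Spec (CommRingCat.of k)}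
    (g : SchemeHomOver x J.toBase) (ψ : SchemeHomOver t x) :
    J.classOf (RelPicard.postComp g ψ) = rigidPicMap c ε ψ (J.classOf g) :=
  (rigidPicMap_rigidPicMap c ε g ψ J.univ).symm

theorem locallyOfFiniteType : LocallyOfFiniteType J.toBase :=
  have := J.smooth
  inferInstance

/-- The origin. -/
def origin : SchemeHomOver (𝟙 (Spec (CommRingCat.of k))) J.toBase := J.homOf 1

/-- The two projections of the square. -/
def fstOver : SchemeHomOver (pullback.fst J.toBase J.toBase ≫ J.toBase) J.toBase :=
  ⟨pullback.fst _ _, rfl⟩

/-- The second projection of the square. -/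
def sndOver : SchemeHomOver (pullback.fst J.toBase J.toBase ≫ J.toBase) J.toBase :=
  ⟨pullback.snd _ _, pullback.condition.symm⟩

/-- The difference map. -/
def diff : SchemeHomOver (pullback.fst J.toBase J.toBase ≫ J.toBase) J.toBase :=
  J.homOf (J.classOf J.fstOver / J.classOf J.sndOver)

theorem isPullback_diagonal :
    IsPullback (pullback.diagonal J.toBase) J.toBase J.diff.1 J.origin.1 := by
  have hw : pullback.diagonal J.toBase ≫ J.diff.1 = J.toBase ≫ J.origin.1 := by
    have e : RelPicard.postComp J.diff
        (⟨pullback.diagonal J.toBase, by simp⟩ :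
          SchemeHomOver J.toBase (pullback.fst J.toBase J.toBase ≫ J.toBase)) =
        RelPicard.postComp J.origin (structOver J.toBase) := by
      apply J.classOf_injective
      simp only [classOf_postComp, origin, diff, classOf_homOf]
      rw [map_one,
        map_div, ← classOf_postComp, ← classOf_postComp, div_eq_one]
      refine congrArg J.classOf (Subtype.ext ?_)
      change pullback.diagonal J.toBase ≫ pullback.fst _ _ =
        pullback.diagonal J.toBase ≫ pullback.snd _ _
      simp
    exact congrArg Subtype.val e
  refine ⟨⟨hw⟩, ⟨PullbackCone.IsLimit.mk _ (fun s => s.fst ≫ pullback.fst _ _) ?_ ?_ ?_⟩⟩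
  · intro s
    let z := s.fst ≫ pullback.fst J.toBase J.toBase ≫ J.toBase
    let ψ : SchemeHomOver z (pullback.fst J.toBase J.toBase ≫ J.toBase) := ⟨s.fst, rfl⟩
    have hz : s.snd = z := by
      have h := congrArg (· ≫ J.toBase) s.condition
      simp only [Category.assoc, J.origin.2, J.diff.2, Category.comp_id] at h
      exact h.symm
    have e : RelPicard.postComp J.diff ψ = RelPicard.postComp J.origin (structOver z) :=
      Subtype.ext (by
        change s.fst ≫ J.diff.1 = z ≫ J.origin.1
        rw [← hz]; exact s.condition)
    have h := congrArg J.classOf e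
    simp only [classOf_postComp, origin, diff, classOf_homOf] at h
    rw [map_one,
      map_div, ← classOf_postComp, ← classOf_postComp, div_eq_one] at h
    have h' : s.fst ≫ pullback.fst _ _ = s.fst ≫ pullback.snd _ _ :=
      congrArg Subtype.val (J.classOf_injective h)
    refine pullback.hom_ext ?_ ?_
    · simp
    · simp [h']
  · intro s
    have h := congrArg (· ≫ J.toBase) s.condition
    simp only [Category.assoc, J.origin.2, J.diff.2, Category.comp_id] at h
    rw [Category.assoc]
    exact h
  · intro s m hm _
    rw [← hm]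
    simp

theorem isSeparated_toBase [IsAlgClosed k] : IsSeparated J.toBase := by
  have := J.locallyOfFiniteType
  have : IsClosedImmersion J.origin.1 := isClosedImmersion_of_comp_eq_id _ _ J.origin.2
  exact ⟨MorphismProperty.of_isPullback J.isPullback_diagonal.flip this⟩

variable (ξ : rigidPic c ε (𝟙 (Spec (CommRingCat.of k))))

/-- Translation by a rational class. -/
def translate : SchemeHomOver J.toBase J.toBase :=
  J.homOf (J.univ * rigidPicMap c ε (structOver J.toBase) ξ)

theorem classOf_translate (g : SchemeHomOver t J.toBase) :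
    J.classOf (RelPicard.postComp (J.translate ξ) g) =
      J.classOf g * rigidPicMap c ε (structOver t) ξ := by
  rw [classOf_postComp, translate, classOf_homOf, map_mul, rigidPicMap_structOver]
  rfl

theorem translate_comp_translate_inv :
    RelPicard.postComp (J.translate ξ⁻¹) (J.translate ξ) =
      ⟨𝟙 J.P, Category.id_comp J.toBase⟩ := by
  apply J.classOf_injective
  rw [classOf_translate, translate, classOf_homOf, map_inv, mul_inv_cancel_right]
  exact (rigidPicMap_id c ε _ rfl _).symm

/-- Translation as an isomorphism. -/
def translateIso : J.P ≅ J.P where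
  hom := (J.translate ξ).1
  inv := (J.translate ξ⁻¹).1
  hom_inv_id := congrArg Subtype.val (J.translate_comp_translate_inv ξ)
  inv_hom_id := by
    have h := congrArg Subtype.val (J.translate_comp_translate_inv ξ⁻¹)
    rwa [inv_inv] at h

theorem exists_translation (a b : SchemeHomOver (𝟙 (Spec (CommRingCat.of k))) J.toBase) :
    ∃ e : J.P ≅ J.P, e.hom ≫ J.toBase = J.toBase ∧ a.1 ≫ e.hom = b.1 := by
  refine ⟨J.translateIso (J.classOf b / J.classOf a), (J.translate _).2, ?_⟩
  change (RelPicard.postComp (J.translate (J.classOf b / J.classOf a)) a).1 = b.1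
  refine congrArg Subtype.val (J.classOf_injective ?_)
  rw [classOf_translate, rigidPicMap_id c ε _ rfl, mul_div_cancel]

end PicScheme

end Fermat.Agent.Jac

end
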