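import Fermat.Agent.Jac.Final.Cut
import Fermat.Agent.Jac.Model
import Fermat.Prelude.Def_AlgebraicGeometry_RepresentsRelSubPic
import Fermat.Prelude.Def_JacJ1Iface

/-!
A Picard scheme with an effective open piece gives the Jacobian of the curve.
-/

set_option autoImplicit false
set_option linter.unusedVariables false

noncomputable section

open CategoryTheory CategoryTheory.Limits AlgebraicGeometry TopologicalSpace Opposite NeronModelInfra
open AlgebraicGeometry.RelPicard GoodReductionJacobian

namespace Fermat.Agent.Jac

universe u

/-- From a Picard scheme to a representing designation of the algebraically trivial cut. -/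
theorem exists_designation_of_picScheme {k : Type u} [Field k] [IsAlgClosed k] {C : Scheme.{u}}
    {c : C ⟶ Spec (CommRingCat.of k)} [IsProper c] [SmoothOfRelativeDimension 1 c] [IsIntegral C]
    {ε : SchemeHomOver (𝟙 (Spec (CommRingCat.of k))) c}
    (M : CurveModel c ε) (J : PicScheme c ε) (g : ℕ) (V : J.P.Opens)
    (hne : (V : Set J.P).Nonempty)
    (hpts : ∀ a : SchemeHomOver (𝟙 (Spec (CommRingCat.of k))) J.toBase,
      Set.range a.1 ⊆ (V : Set J.P) →
      ∃ x : Fin g → SchemeHomOver (𝟙 (Spec (CommRingCat.of k))) c,
        (J.classOf a : Pic _) =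
          Pic.map (pullback.fst c (𝟙 _)) (∏ i, pointClass c (x i) / pointClass c ε)) :
    ∃ D : RelativePic0Designation k c,
      Nonempty (RepresentsRelSubPic c ε (algEquivZeroCut c ε) D) ∧
        Smooth D.toBase ∧ IsProper D.toBase ∧ GeometricallyConnected D.toBase := by
  have := J.smooth
  have := J.locallyOfFiniteType
  have := J.isSeparated_toBase
  have hα := J.isClopen_range_ajMap g V hne hpts
  let b := componentToBase (J.ajMap g) hα
  let incl : SchemeHomOver b J.toBase := ⟨(component (J.ajMap g) hα).ι, rfl⟩
  obtain ⟨o, ho⟩ := exists_componentPoint (J.ajMap g) hα J.origin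
    ⟨(epsTuple c ε g).1, J.epsTuple_ajMap g⟩
  refine ⟨⟨(component (J.ajMap g) hα).toScheme, b, o.1, o.2⟩, ?_,
    inferInstanceAs (Smooth ((component (J.ajMap g) hα).ι ≫ J.toBase)),
    isProper_componentToBase _ hα, geometricallyConnected_componentToBase _ hα⟩
  have hcl : J.homOf (bundleClass (bundleOfClass (J.classOf incl))) = incl := by
    rw [bundleClass_bundleOfClass, PicScheme.homOf_classOf]
  refine ⟨{
    poincare := bundleOfClass (J.classOf incl)
    poincare_mem := ?_
    univ := ?_
    zero := ?_ }⟩
  · refine J.fibrewiseAlgEquivZero_of_range_subset g hα _ ?_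
    rw [hcl]
    exact (Scheme.Opens.range_ι _).subset
  · intro T t Mb hMb
    let h := J.homOf (bundleClass Mb)
    have hiff : ∀ f : SchemeHomOver t b,
        Nonempty (((bundleOfClass (J.classOf incl)).pullbackAlong f).L ≅ Mb.L) ↔
          f.1 ≫ (component (J.ajMap g) hα).ι = h.1 := fun f => by
      rw [← bundleClass_eq_iff, bundleClass_pullbackAlong, bundleClass_bundleOfClass,
        ← J.classOf_postComp]
      constructor
      · intro e
        have e' := congrArg J.homOf e
        rw [PicScheme.homOf_classOf] at e'
        exact congrArg Subtype.val e'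
      · intro e
        rw [← J.classOf_homOf (bundleClass Mb)]
        exact congrArg J.classOf (Subtype.ext e)
    have hr := J.range_subset_of_fibrewiseAlgEquivZero g hα Mb hMb
    refine ⟨liftComponent (J.ajMap g) hα h hr, (hiff _).mpr (liftComponent_ι ..), fun f hf => ?_⟩
    apply Subtype.ext
    rw [← cancel_mono (component (J.ajMap g) hα).ι, (hiff f).mp hf, liftComponent_ι]
  · rw [← bundleClass_eq_iff, bundleClass_pullbackAlong, bundleClass_bundleOfClass,
      bundleClass_unit, ← J.classOf_postComp]
    have e : RelPicard.postComp incl (⟨o.1, o.2⟩ : SchemeHomOver (𝟙 _) b) = J.origin :=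
      Subtype.ext ho
    rw [e, PicScheme.origin, PicScheme.classOf_homOf]

end Fermat.Agent.Jac

end
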