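import Fermat.Agent.Jac.Final.Basic
import Fermat.Agent.Jac.AJ.Diagonal
import Fermat.Agent.Jac.Component

/-!
The Abel-Jacobi class on powers of the curve and its values at rational points.
-/

set_option autoImplicit false
set_option linter.unusedVariables false

noncomputable section

open CategoryTheory CategoryTheory.Limits AlgebraicGeometry TopologicalSpace Opposite NeronModelInfra
open AlgebraicGeometry.RelPicard

namespace Fermat.Agent.Jac

universe u

variable {k : Type u} [Field k] [IsAlgClosed k] {C : Scheme.{u}}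
  (c : C ⟶ Spec (CommRingCat.of k)) [IsProper c] [SmoothOfRelativeDimension 1 c] [IsIntegral C]
  (ε : SchemeHomOver (𝟙 (Spec (CommRingCat.of k))) c)

theorem baseChangeSnd_eq_pointSection (x : SchemeHomOver (𝟙 (Spec (CommRingCat.of k))) c) :
    baseChangeSnd c x = pullback.fst c (𝟙 _) ≫ pointSection c x := by
  refine pullback.hom_ext ?_ ?_
  · rw [baseChangeSnd_fst, Category.assoc, pointSection_fst, Category.comp_id]
  · rw [baseChangeSnd_snd, Category.assoc, pointSection_snd, ← Category.assoc,
      pullback.condition, Category.comp_id]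

omit [IsAlgClosed k] [IsProper c] [SmoothOfRelativeDimension 1 c] [IsIntegral C] in
theorem coe_rigidify_point (ξ : Pic (pullback c (𝟙 (Spec (CommRingCat.of k))))) :
    (rigidify c ε (𝟙 _) ξ : Pic _) = ξ := by
  rw [coe_rigidify, pic_eq_one_of_subsingleton (Pic.map (rigSection c (𝟙 _) ε) ξ), map_one, div_one]

/-- The rigidified diagonal class. -/
def diagRigid : rigidPic c ε c := rigidify c ε c (diagClass c)

theorem coe_diagRigid_point (x : SchemeHomOver (𝟙 (Spec (CommRingCat.of k))) c) :
    (rigidPicMap c ε x (diagRigid c ε) : Pic _) = Pic.map (pullback.fst c (𝟙 _)) (pointClass c x) := by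
  rw [diagRigid, rigidPicMap_rigidify, coe_rigidify_point, baseChangeSnd_eq_pointSection,
    ← Pic.map_map, map_diagClass]

/-- The class `O(Δ) - O(ε)`. -/
def ajOne : rigidPic c ε c :=
  diagRigid c ε / rigidPicMap c ε (structOver c) (rigidPicMap c ε ε (diagRigid c ε))

theorem coe_ajOne_point (x : SchemeHomOver (𝟙 (Spec (CommRingCat.of k))) c) :
    (rigidPicMap c ε x (ajOne c ε) : Pic _) =
      Pic.map (pullback.fst c (𝟙 _)) (pointClass c x / pointClass c ε) := by
  rw [ajOne, map_div, rigidPicMap_structOver, rigidPicMap_id c ε (structOver _) rfl,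
    Subgroup.coe_div, coe_diagRigid_point, coe_diagRigid_point, map_div]

/-- The Abel-Jacobi class on a power of the curve. -/
def ajClass (g : ℕ) : rigidPic c ε (curvePowHom c g) :=
  ∏ i, rigidPicMap c ε (curvePowProj c g i) (ajOne c ε)

theorem rigidPicMap_ajClass {T : Scheme.{u}} {t : T ⟶ Spec (CommRingCat.of k)} (g : ℕ)
    (y : SchemeHomOver t (curvePowHom c g)) :
    rigidPicMap c ε y (ajClass c ε g) =
      ∏ i, rigidPicMap c ε (curvePowEquiv c t g y i) (ajOne c ε) := by
  rw [ajClass, map_prod]
  refine Finset.prod_congr rfl fun i _ => ?_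
  rw [rigidPicMap_rigidPicMap]
  exact congrFun (congrArg DFunLike.coe (rigidPicMap_congr c ε rfl)) _

theorem coe_ajClass_tuple (g : ℕ) (x : Fin g → SchemeHomOver (𝟙 (Spec (CommRingCat.of k))) c) :
    (rigidPicMap c ε ((curvePowEquiv c (𝟙 _) g).symm x) (ajClass c ε g) : Pic _) =
      Pic.map (pullback.fst c (𝟙 _)) (∏ i, pointClass c (x i) / pointClass c ε) := by
  rw [rigidPicMap_ajClass, Equiv.apply_symm_apply, SubmonoidClass.coe_finsetProd, map_prod]
  exact Finset.prod_congr rfl fun i _ => coe_ajOne_point c ε (x i)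

/-- The diagonal tuple of the marked point. -/
def epsTuple (g : ℕ) : SchemeHomOver (𝟙 (Spec (CommRingCat.of k))) (curvePowHom c g) :=
  (curvePowEquiv c (𝟙 _) g).symm fun _ => ε

theorem rigidPicMap_epsTuple (g : ℕ) :
    rigidPicMap c ε (epsTuple c ε g) (ajClass c ε g) = 1 := by
  refine Subtype.ext ?_
  rw [epsTuple, coe_ajClass_tuple]
  simp

variable {c ε}

namespace PicScheme

variable (J : PicScheme c ε) (g : ℕ)

/-- The Abel-Jacobi map. -/
def ajMap : SchemeHomOver (curvePowHom c g) J.toBase := J.homOf (ajClass c ε g)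

theorem classOf_ajMap_comp {T : Scheme.{u}} {t : T ⟶ Spec (CommRingCat.of k)}
    (y : SchemeHomOver t (curvePowHom c g)) :
    J.classOf (RelPicard.postComp (J.ajMap g) y) = rigidPicMap c ε y (ajClass c ε g) := by
  rw [classOf_postComp, ajMap, classOf_homOf]

theorem epsTuple_ajMap : (epsTuple c ε g).1 ≫ (J.ajMap g).1 = J.origin.1 := by
  have h : RelPicard.postComp (J.ajMap g) (epsTuple c ε g) = J.origin := by
    apply J.classOf_injective
    rw [classOf_ajMap_comp, rigidPicMap_epsTuple, origin, classOf_homOf]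
  exact congrArg Subtype.val h

theorem isClopen_range_ajMap (V : J.P.Opens) (hne : (V : Set J.P).Nonempty)
    (hpts : ∀ a : SchemeHomOver (𝟙 (Spec (CommRingCat.of k))) J.toBase,
      Set.range a.1 ⊆ (V : Set J.P) →
      ∃ x : Fin g → SchemeHomOver (𝟙 (Spec (CommRingCat.of k))) c,
        (J.classOf a : Pic _) =
          Pic.map (pullback.fst c (𝟙 _)) (∏ i, pointClass c (x i) / pointClass c ε)) :
    IsClopen (Set.range (J.ajMap g).1) := by
  have := J.locallyOfFiniteType
  have := J.isSeparated_toBase
  refine isClopen_range_of_homogeneous _ ⟨V, hne, fun q hq hcl => ?_⟩ J.exists_translation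
  let a : SchemeHomOver (𝟙 (Spec (CommRingCat.of k))) J.toBase :=
    ⟨pointOfClosedPoint J.toBase q hcl, pointOfClosedPoint_comp _ _ _⟩
  have ha : ∀ s, a.1 s = q := pointOfClosedPoint_apply J.toBase q hcl
  obtain ⟨x, hx⟩ := hpts a (by rintro _ ⟨s, rfl⟩; rw [ha s]; exact hq)
  let y := (curvePowEquiv c (𝟙 _) g).symm x
  have hy : RelPicard.postComp (J.ajMap g) y = a := by
    apply J.classOf_injective
    refine Subtype.ext ?_
    rw [classOf_ajMap_comp, coe_ajClass_tuple, hx]
  let s : Spec (CommRingCat.of k) := IsLocalRing.closedPoint k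
  refine ⟨y.1 s, ?_⟩
  rw [← ha s, ← Scheme.Hom.comp_apply]
  exact congrArg (fun f : SchemeHomOver _ J.toBase => f.1 s) hy

end PicScheme

end Fermat.Agent.Jac

end
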