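import Fermat.Agent.Jac.Final.AbelJacobi
import Fermat.Agent.Jac.Rigid.Classes
import Fermat.Prelude.Def_AlgebraicGeometry_RelPicardAlgEquivZeroCut

/-!
A rigidified line bundle is fibrewise algebraically trivial exactly when its classifying map lands in
the component of the origin.
-/

set_option autoImplicit false
set_option linter.unusedVariables false

noncomputable section

open CategoryTheory CategoryTheory.Limits AlgebraicGeometry TopologicalSpace Opposite NeronModelInfra
open AlgebraicGeometry.RelPicard

namespace Fermat.Agent.Jac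

universe u

variable {k : Type u} [Field k] [IsAlgClosed k] {C : Scheme.{u}}
  {c : C ⟶ Spec (CommRingCat.of k)} [IsProper c] [SmoothOfRelativeDimension 1 c] [IsIntegral C]
  {ε : SchemeHomOver (𝟙 (Spec (CommRingCat.of k))) c}

namespace PicScheme

variable (J : PicScheme c ε) (g : ℕ) (hα : IsClopen (Set.range (J.ajMap g).1))
  {T : Scheme.{u}} {t : T ⟶ Spec (CommRingCat.of k)}

include hα in
theorem origin_mem_component (s : ↥(Spec (CommRingCat.of k))) :
    J.origin.1 s ∈ component (J.ajMap g) hα :=
  range_subset_component_of_factor (J.ajMap g) hα J.origin.1 (epsTuple c ε g).1 (J.epsTuple_ajMap g)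
    ⟨s, rfl⟩

/-- A point of the component over an algebraically closed field lifts to the power of the curve. -/
theorem exists_lift_of_mem_component {K : Type u} [Field K] [IsAlgClosed K]
    {z : Spec (CommRingCat.of K) ⟶ Spec (CommRingCat.of k)} (q : SchemeHomOver z J.toBase)
    (hq : Set.range q.1 ⊆ component (J.ajMap g) hα) :
    ∃ y : SchemeHomOver z (curvePowHom c g), y.1 ≫ (J.ajMap g).1 = q.1 := by
  let β := toComponent (J.ajMap g) hα
  let r := liftComponent (J.ajMap g) hα q hq
  have : Surjective β := surjective_toComponent (J.ajMap g) hα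
  have : LocallyOfFiniteType (β ≫ componentToBase (J.ajMap g) hα) := by
    rw [toComponent_toBase]; infer_instance
  have : LocallyOfFiniteType β :=
    locallyOfFiniteType_of_comp β (componentToBase (J.ajMap g) hα)
  have hs : Surjective (pullback.fst r.1 β) := MorphismProperty.pullback_fst _ _ inferInstance
  obtain ⟨w, -⟩ := hs.surj (IsLocalRing.closedPoint K)
  have : JacobsonSpace ↥(pullback r.1 β) := LocallyOfFiniteType.jacobsonSpace (pullback.fst r.1 β)
  obtain ⟨v, -, hv⟩ := nonempty_inter_closedPoints (Z := (Set.univ : Set ↥(pullback r.1 β)))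
    ⟨w, trivial⟩ isOpen_univ.isLocallyClosed
  let p := pointOfClosedPoint (pullback.fst r.1 β) v hv
  have hp : p ≫ pullback.fst r.1 β = 𝟙 _ := pointOfClosedPoint_comp _ _ _
  have hy : (p ≫ pullback.snd r.1 β) ≫ (J.ajMap g).1 = q.1 := by
    calc (p ≫ pullback.snd r.1 β) ≫ (J.ajMap g).1
        = (p ≫ pullback.snd r.1 β ≫ β) ≫ (component (J.ajMap g) hα).ι := by
          rw [Category.assoc, Category.assoc, Category.assoc, toComponent_ι]
      _ = r.1 ≫ (component (J.ajMap g) hα).ι := by
          rw [← pullback.condition, ← Category.assoc p, hp, Category.id_comp]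
      _ = q.1 := liftComponent_ι ..
  refine ⟨⟨p ≫ pullback.snd r.1 β, ?_⟩, hy⟩
  exact ((congrArg ((p ≫ pullback.snd r.1 β) ≫ ·) (J.ajMap g).2).symm.trans
    ((Category.assoc _ _ _).symm.trans (congrArg (· ≫ J.toBase) hy))).trans q.2

include hα in
theorem fibrewiseAlgEquivZero_of_range_subset (Mb : RigidifiedLineBundle c ε t)
    (h : Set.range (J.homOf (bundleClass Mb)).1 ⊆ component (J.ajMap g) hα) :
    FibrewiseAlgEquivZero Mb := by
  intro K _ _ s
  let sH : SchemeHomOver (s ≫ t) t := ⟨s, rfl⟩
  obtain ⟨y, hy⟩ := J.exists_lift_of_mem_component g hα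
    (RelPicard.postComp (J.homOf (bundleClass Mb)) sH)
    (fun _ ⟨v, hv⟩ => h ⟨s v, by rw [← hv]; exact (Scheme.Hom.comp_apply _ _ _).symm⟩)
  let a := fibreAt c t s
  let h' : pullback (curvePowHom c g) (s ≫ t) ⟶ Spec (CommRingCat.of K) := pullback.snd _ _
  have hcond : pullback.fst (pullback.snd c t) s ≫ pullback.fst c t ≫ c = a ≫ s ≫ t := by
    change _ = pullback.snd (pullback.snd c t) s ≫ s ≫ t
    rw [pullback.condition, ← Category.assoc, pullback.condition, Category.assoc]
  let f : pullback a h' ⟶ pullback c (curvePowHom c g) :=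
    pullback.lift (pullback.fst a h' ≫ pullback.fst (pullback.snd c t) s ≫ pullback.fst c t)
      (pullback.snd a h' ≫ pullback.fst (curvePowHom c g) (s ≫ t)) (by
        rw [Category.assoc, Category.assoc, Category.assoc, hcond, ← Category.assoc,
          pullback.condition, Category.assoc, pullback.condition])
  let φ : pullback a (𝟙 (Spec (CommRingCat.of K))) ⟶ pullback c (s ≫ t) :=
    pullback.lift (pullback.fst a (𝟙 _) ≫ pullback.fst (pullback.snd c t) s ≫ pullback.fst c t)
      (pullback.snd a (𝟙 _)) (by
        rw [Category.assoc, Category.assoc, hcond, ← Category.assoc, pullback.condition,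
          Category.comp_id])
  let sec : SchemeHomOver (s ≫ t) (curvePowHom c g) → SchemeHomOver (𝟙 _) h' := fun Y =>
    ⟨pullback.lift Y.1 (𝟙 _) (Y.2.trans (Category.id_comp _).symm), pullback.lift_snd _ _ _⟩
  have key : ∀ Y, baseChangeSnd a (sec Y) ≫ f = φ ≫ baseChangeSnd c Y := fun Y => by
    refine pullback.hom_ext ?_ ?_
    · simp only [f, φ, Category.assoc, pullback.lift_fst, baseChangeSnd_fst]
      rw [← Category.assoc (baseChangeSnd a (sec Y)), baseChangeSnd_fst]
    · simp only [f, φ, Category.assoc, pullback.lift_snd, baseChangeSnd_snd]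
      rw [← Category.assoc (baseChangeSnd a (sec Y)), baseChangeSnd_snd, Category.assoc,
        ← Category.assoc (pullback.lift _ _ _), pullback.lift_snd]
      simp only [sec, pullback.lift_fst]
  have hξ := (bundleOfClass (ajClass c ε g)).isInvertible
  have hclass : ∀ Y, picClass ((hξ.pullback f).pullback (baseChangeSnd a (sec Y))) =
      Pic.map φ (rigidPicMap c ε Y (ajClass c ε g) : Pic _) := fun Y => by
    rw [picClass_pullback _ (hξ.pullback f), picClass_pullback f hξ, coe_rigidPicMap, Pic.map_map,
      Pic.map_map, key, ← coe_bundleClass, bundleClass_bundleOfClass]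
  refine ⟨_, h', inferInstance, inferInstance, _, hξ.pullback f,
    sec (RelPicard.postComp (epsTuple c ε g) (structOver (s ≫ t))), sec y,
    (picClass_eq_iff ((hξ.pullback f).pullback _) (Scheme.Modules.isInvertible_unit _)).mp ?_,
    (picClass_eq_iff ((hξ.pullback f).pullback _)
      ((Mb.isInvertible.pullback _).pullback _)).mp ?_⟩
  · rw [hclass, ← rigidPicMap_rigidPicMap, rigidPicMap_epsTuple, map_one, picClass_unit]
    exact map_one _
  · have e : rigidPicMap c ε y (ajClass c ε g) = rigidPicMap c ε sH (bundleClass Mb) := by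
      rw [← J.classOf_ajMap_comp g y, ← J.classOf_homOf (bundleClass Mb), ← classOf_postComp]
      exact congrArg J.classOf (Subtype.ext hy)
    rw [hclass, e, picClass_pullback _ (Mb.isInvertible.pullback _),
      picClass_pullback _ Mb.isInvertible, coe_rigidPicMap, coe_bundleClass, Pic.map_map,
      Pic.map_map]
    congr 2
    refine pullback.hom_ext ?_ ?_
    · simp only [φ, Category.assoc, baseChangeSnd_fst, pullback.lift_fst]
      rfl
    · simp only [φ, Category.assoc, baseChangeSnd_snd]
      rw [← Category.assoc, pullback.lift_snd, pullback.condition]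
      change pullback.snd a (𝟙 _) ≫ s = pullback.fst a (𝟙 _) ≫ a ≫ s
      rw [← Category.assoc, pullback.condition, Category.comp_id]

include hα in
theorem range_subset_of_fibrewiseAlgEquivZero (Mb : RigidifiedLineBundle c ε t)
    (hM : FibrewiseAlgEquivZero Mb) :
    Set.range (J.homOf (bundleClass Mb)).1 ⊆ component (J.ajMap g) hα := by
  rintro _ ⟨x, rfl⟩
  let s : Spec (CommRingCat.of (AlgebraicClosure (T.residueField x))) ⟶ T :=
    Spec.map (CommRingCat.ofHom
      (algebraMap (T.residueField x) (AlgebraicClosure (T.residueField x)))) ≫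
      T.fromSpecResidueField x
  let pt : ↥(Spec (CommRingCat.of (AlgebraicClosure (T.residueField x)))) :=
    IsLocalRing.closedPoint (AlgebraicClosure (T.residueField x))
  have hspt : s pt = x := by
    rw [Scheme.Hom.comp_apply, Scheme.fromSpecResidueField_apply]
  obtain ⟨T', h', hft, hgi, M, hMi, t₀, t₁, ⟨e₀⟩, ⟨e₁⟩⟩ :=
    hM (AlgebraicClosure (T.residueField x)) s
  let a := fibreAt c t s
  let z := s ≫ t
  let ψ : SchemeHomOver (h' ≫ z) t := ⟨h' ≫ s, Category.assoc _ _ _⟩
  let sH : SchemeHomOver z t := ⟨s, rfl⟩
  let e : pullback c (h' ≫ z) ⟶ pullback a h' :=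
    pullback.lift (pullback.lift (baseChangeSnd c ψ) (pullback.snd c (h' ≫ z) ≫ h') (by
      rw [baseChangeSnd_snd, Category.assoc]))
      (pullback.snd c (h' ≫ z)) (pullback.lift_snd _ _ _)
  let E : pullback c z ⟶ pullback a (𝟙 _) :=
    pullback.lift (pullback.lift (baseChangeSnd c sH) (pullback.snd c z) (baseChangeSnd_snd c sH))
      (pullback.snd c z) ((pullback.lift_snd _ _ _).trans (Category.comp_id _).symm)
  let pull : SchemeHomOver (𝟙 _) h' → SchemeHomOver z (h' ≫ z) := fun u =>
    ⟨u.1, by rw [← Category.assoc, u.2, Category.id_comp]⟩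
  have key : ∀ u, baseChangeSnd c (pull u) ≫ e = E ≫ baseChangeSnd a u := fun u => by
    refine pullback.hom_ext ?_ ?_
    · simp only [e, E, Category.assoc, pullback.lift_fst, baseChangeSnd_fst]
      refine pullback.hom_ext ?_ ?_
      · simp only [Category.assoc, pullback.lift_fst, baseChangeSnd_comp]
        congr 1
        refine Subtype.ext ?_
        change u.1 ≫ h' ≫ s = s
        rw [← Category.assoc, u.2, Category.id_comp]
      · simp only [Category.assoc, pullback.lift_snd]
        rw [← Category.assoc, baseChangeSnd_snd, Category.assoc]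
        change pullback.snd c z ≫ u.1 ≫ h' = _
        rw [u.2, Category.comp_id]
    · simp only [e, E, Category.assoc, pullback.lift_snd, baseChangeSnd_snd]
      exact (pullback.lift_snd_assoc _ _ _ _).symm
  let g' := J.homOf (rigidify c ε (h' ≫ z) (Pic.map e (picClass hMi)))
  have hval : ∀ u, J.classOf (RelPicard.postComp g' (pull u)) =
      rigidify c ε z (Pic.map E (picClass (hMi.pullback (baseChangeSnd a u)))) := fun u => by
    rw [classOf_postComp, classOf_homOf, rigidPicMap_rigidify, Pic.map_map, key,
      picClass_pullback _ hMi, Pic.map_map]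
  have h0 : (pull t₀).1 ≫ g'.1 = z ≫ J.origin.1 := by
    have hh : RelPicard.postComp g' (pull t₀) = RelPicard.postComp J.origin (structOver z) := by
      apply J.classOf_injective
      rw [hval, classOf_postComp, origin, classOf_homOf, map_one,
        (picClass_eq_iff _ (Scheme.Modules.isInvertible_unit _)).mpr ⟨e₀⟩, picClass_unit, map_one,
        map_one]
    exact congrArg Subtype.val hh
  have h1 : (pull t₁).1 ≫ g'.1 = s ≫ (J.homOf (bundleClass Mb)).1 := by
    have hh : RelPicard.postComp g' (pull t₁) =
        RelPicard.postComp (J.homOf (bundleClass Mb)) sH := by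
      apply J.classOf_injective
      rw [hval, classOf_postComp, classOf_homOf,
        (picClass_eq_iff _ ((Mb.isInvertible.pullback _).pullback _)).mpr ⟨e₁⟩,
        picClass_pullback _ (Mb.isInvertible.pullback _), picClass_pullback _ Mb.isInvertible,
        Pic.map_map, Pic.map_map]
      have hE : (E ≫ pullback.fst a (𝟙 _)) ≫ pullback.fst (pullback.snd c t) s =
          baseChangeSnd c sH := by
        simp only [E, pullback.lift_fst]
      refine Eq.trans ?_ (rigidify_coe c ε z (rigidPicMap c ε sH (bundleClass Mb)))
      rw [hE, coe_rigidPicMap, coe_bundleClass]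
    exact congrArg Subtype.val hh
  have : IrreducibleSpace T' := by
    have : Nonempty ↥(Spec (CommRingCat.of (AlgebraicClosure (T.residueField x)))) := ⟨pt⟩
    exact GeometricallyIrreducible.irreducibleSpace_of_subsingleton h'
  have hsub : Set.range g'.1 ⊆ component (J.ajMap g) hα :=
    range_subset_component_of_preconnected (J.ajMap g) hα g'.1 ⟨(pull t₀).1 pt, by
      rw [← Scheme.Hom.comp_apply, h0, Scheme.Hom.comp_apply]
      exact J.origin_mem_component g hα _⟩
  rw [← hspt, ← Scheme.Hom.comp_apply, ← h1, Scheme.Hom.comp_apply]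
  exact hsub ⟨_, rfl⟩

end PicScheme

end Fermat.Agent.Jac

end
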